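import Fermat.Agent.RIB.Key.Main
import Fermat.Agent.S18

/-!
# ML / AT-2 / (E1), consumer side : (KEY) for classes invariant under a family of automorphisms

Level `M q`, `M` rigid, `q ∤ M`, `A ∣ q`, `TT = SS.twoRed` = the two Gauss valuations of `F_{M q}`, `m = p ^ e`, `p ≠ q`.

* `TriC hqM A m x y₁ y₂` : the relation `Tri` of `RIB/Key/Geo.lean`, without the irrelevant parameters (`triC_iff : Iff.rfl`).
* `KeyAut hqM A m gF gX g₁ g₂ gY₁ gY₂` : the INTERFACE for one automorphism `g` of the modular curve of level `M q` which is compatible with an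
  automorphism of the curve of level `M` : action on functions (`gF`), on `J₀(M q)` (`gX`), on the function field of the special fibre seen from the two
  components (`g₁`, `g₂`), on `J₀(M)` (`gY₁`, `gY₂`; they may differ).   `KeyAut.tri` : `Tri` is equivariant.
* `key_eq` : if no nonzero class of `W(M)` is invariant under all `gY₁ c` (resp. all `gY₂ c`) then `σ x + q w_q x = 0` for all `x` in the
  `θ`-part of `J₀(M q)` which are fixed by inertia and such that `x` and `T_{ℓ₀} x` are fixed by all `gX c`.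

No commutation relation between the `g` and the Hecke operators is used.
-/

set_option autoImplicit false
set_option linter.style.haveILetI false
set_option linter.unusedSectionVars false
set_option synthInstance.maxHeartbeats 400000

noncomputable section

open AlgebraicCurve ModularCurve IsLocalRing

namespace Fermat.Agent.ML.At2.KeyG

open Fermat.Agent.RED hiding Kb
open Fermat.Agent.S24 Fermat.Agent.RED.TorsES Fermat.Agent.SS Fermat.Agent.SSP Fermat.Agent.HK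
open Fermat.Agent.S40.HK Fermat.Agent.RIB Fermat.Agent.RIB.Key
open Fermat.Agent.GAL Fermat.Agent.GAL.PC Fermat.Agent.S40
open Fermat.Agent.RED.Cusp (Fb)

/-! ### abstract part -/

section Abs

variable {X Y C F Fb ι : Type*} [AddCommGroup X] [AddCommGroup Y] [AddCommGroup C]
  [Field F] [Field Fb] (𝒯 : TriData X Y C F Fb ι)

/-- the components of an invariant class are invariant. -/
theorem fixed_of_tri (m : ℕ) (hinj : ∀ y : Y, m • y = 0 → 𝒯.red y = 0 → y = 0)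
    (gX : X →+ X) (gY₁ gY₂ : Y →+ Y)
    (hg : ∀ x y₁ y₂, 𝒯.Tri x y₁ y₂ → 𝒯.Tri (gX x) (gY₁ y₁) (gY₂ y₂))
    {x : X} {y₁ y₂ : Y} (hx : gX x = x) (hy₁ : m • y₁ = 0) (hy₂ : m • y₂ = 0)
    (h : 𝒯.Tri x y₁ y₂) : gY₁ y₁ = y₁ ∧ gY₂ y₂ = y₂ := by
  have h1 := 𝒯.isAddRel.sub (hg _ _ _ h) h
  rw [hx, sub_self] at h1
  obtain ⟨h2, h3⟩ := 𝒯.red_eq_zero_of_tri_zero h1
  exact ⟨sub_eq_zero.1 (hinj _ (by rw [nsmul_sub, ← map_nsmul, hy₁, map_zero, sub_zero]) h2),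
    sub_eq_zero.1 (hinj _ (by rw [nsmul_sub, ← map_nsmul, hy₂, map_zero, sub_zero]) h3)⟩

/-- the components of a `θ`-class are `θ`-classes. -/
theorem theta_of_tri (m : ℕ) (θ : ι → ℤ) (hinj : ∀ y : Y, m • y = 0 → 𝒯.red y = 0 → y = 0)
    {x : X} (hx : ∀ r : ι, ∃ n : ℕ, ((𝒯.TX r - ((θ r : ℤ) : Module.End ℤ X)) ^ n) x = 0)
    {y₁ y₂ : Y} (hy₁ : m • y₁ = 0) (hy₂ : m • y₂ = 0) (h : 𝒯.Tri x y₁ y₂) (r : ι) :
    (∃ n : ℕ, ((𝒯.TY r - ((θ r : ℤ) : Module.End ℤ Y)) ^ n) y₁ = 0) ∧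
      ∃ n : ℕ, ((𝒯.TY r - ((θ r : ℤ) : Module.End ℤ Y)) ^ n) y₂ = 0 := by
  obtain ⟨n, hn⟩ := hx r
  have h1 := 𝒯.tri_hk_pow r (θ r) n h
  rw [hn] at h1
  obtain ⟨h2, h3⟩ := 𝒯.red_eq_zero_of_tri_zero h1
  exact ⟨⟨n, hinj _ (by rw [← map_nsmul, hy₁, map_zero]) h2⟩,
    ⟨n, hinj _ (by rw [← map_nsmul, hy₂, map_zero]) h3⟩⟩

end Abs

/-- a nonzero class of `p`-power order has a nonzero multiple of order `p`. -/
theorem exists_pow_smul_ne_zero {Y : Type*} [AddCommGroup Y] {p : ℕ} (e : ℕ) {y : Y}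
    (hy : p ^ e • y = 0) (h0 : y ≠ 0) : ∃ j : ℕ, p ^ j • y ≠ 0 ∧ p • (p ^ j • y) = 0 := by
  induction e with
  | zero => rw [pow_zero, one_smul] at hy; exact absurd hy h0
  | succ e ih =>
    by_cases h : p ^ e • y = 0
    · exact ih h
    · exact ⟨e, h, by rw [smul_smul, ← pow_succ']; exact hy⟩

/-! ### the concrete relation -/

variable {M q : ℕ} [NeZero M] [hq : Fact q.Prime] (hqM : ¬ q ∣ M)
variable (A : ValuationSubring Kb) [CharP (ResidueField A) q] [IsAlgClosed (ResidueField A)]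

local notation "kA" => ResidueField A
local notation "TT" => twoRed hqM (residue A) residue_surjective

/-- the relation `Tri` of `RIB/Key/Geo.lean`. -/
def TriC (m : ℕ) (x : JZero (M * q)) (y₁ y₂ : JZero M) : Prop :=
  ∃ f : FN (M * q), Kum m x f ∧ IsU hqM A f ∧ Rel (A := A) m (rd₁ (TT) f) y₁ ∧
    Rel (A := A) m (rd₂ (TT) f) y₂

theorem triC_iff (hA : A.LiesOverPrime q) (h49 : 4 ∣ M ∨ 9 ∣ M) (h : ReductionInputsModL A M)
    {m : ℕ} (hm : m ≠ 0) (S : Set ℕ) (hS : ∀ r : Nat.Primes, (r : ℕ) ∉ S → ¬ (r : ℕ) ∣ M * q)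
    (x : JZero (M * q)) (y₁ y₂ : JZero M) :
    (triData hqM A hA h49 h hm S hS).Tri x y₁ y₂ ↔ TriC hqM A m x y₁ y₂ := Iff.rfl

/-- **the interface of (E1)** : one automorphism. -/
structure KeyAut (m : ℕ) (gF : FN (M * q) → FN (M * q)) (gX : JZero (M * q) →+ JZero (M * q))
    (g₁ g₂ : Fb kA M → Fb kA M) (gY₁ gY₂ : JZero M →+ JZero M) : Prop where
  kum : ∀ {x f}, Kum m x f → Kum m (gX x) (gF f)
  isU : ∀ {f}, IsU hqM A f → IsU hqM A (gF f)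
  rd₁ : ∀ {f}, IsU hqM A f → rd₁ (TT) (gF f) = g₁ (rd₁ (TT) f)
  rd₂ : ∀ {f}, IsU hqM A f → rd₂ (TT) (gF f) = g₂ (rd₂ (TT) f)
  rel₁ : ∀ {w y}, Rel (A := A) m w y → Rel (A := A) m (g₁ w) (gY₁ y)
  rel₂ : ∀ {w y}, Rel (A := A) m w y → Rel (A := A) m (g₂ w) (gY₂ y)

variable {hqM A} in
theorem KeyAut.tri {m : ℕ} {gF : FN (M * q) → FN (M * q)} {gX : JZero (M * q) →+ JZero (M * q)}
    {g₁ g₂ : Fb kA M → Fb kA M} {gY₁ gY₂ : JZero M →+ JZero M}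
    (H : KeyAut hqM A m gF gX g₁ g₂ gY₁ gY₂) {x : JZero (M * q)} {y₁ y₂ : JZero M}
    (h : TriC hqM A m x y₁ y₂) : TriC hqM A m (gX x) (gY₁ y₁) (gY₂ y₂) := by
  obtain ⟨f, h1, h2, h3, h4⟩ := h
  exact ⟨gF f, H.kum h1, H.isU h2, by rw [H.rd₁ h2]; exact H.rel₁ h3,
    by rw [H.rd₂ h2]; exact H.rel₂ h4⟩

/-! ### the toric statement -/

section Main

open MvPolynomial Fermat.Agent.S40.Kill

variable (hA : A.LiesOverPrime q) (h49 : 4 ∣ M ∨ 9 ∣ M)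
variable {p : ℕ} (hp : p.Prime) (hpq : p ≠ q)

include hA h49 hp hpq in
/-- **(KEY-GEO) for invariant classes**, toric form. -/
theorem isToric_eq (S : Set ℕ) (hS : ∀ ℓ : ℕ, ℓ.Prime → ℓ ∉ S → ¬ ℓ ∣ M * q) (θ : ℕ → ℤ)
    (ℓ₀ : ℕ) (hℓ₀ : ℓ₀.Prime) (hℓ₀S : ℓ₀ ∉ S)
    {γ : Type*} (gX : γ → JZero (M * q) →+ JZero (M * q)) (gY₁ gY₂ : γ → JZero M →+ JZero M)
    (e : ℕ)
    (hTri : ∀ (c : γ) x y₁ y₂, TriC hqM A (p ^ e) x y₁ y₂ →
      TriC hqM A (p ^ e) (gX c x) (gY₁ c y₁) (gY₂ c y₂))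
    (h0₁ : ∀ y ∈ WS M p S θ, (∀ c, gY₁ c y = y) → y = 0)
    (h0₂ : ∀ y ∈ WS M p S θ, (∀ c, gY₂ c y = y) → y = 0)
    (x : JZero (M * q)) (hx : x ∈ thetaPart (M * q) p S θ) (hxe : p ^ e • x = 0)
    (hI : ∀ τ ∈ A.inertiaSubgroupIn ℚ, τ • x = x) (hg : ∀ c, gX c x = x)
    (hg' : ∀ c, gX c (heckeOperatorBar (M * q) ⟨ℓ₀, hℓ₀⟩ x) =
      heckeOperatorBar (M * q) ⟨ℓ₀, hℓ₀⟩ x) :
    IsToric (TT) (p ^ e) (heckeOperatorBar (M * q) ⟨ℓ₀, hℓ₀⟩ x - (ℓ₀ + 1) • x) := by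
  have h : ReductionInputsModL A M :=
    reductionInputsModL_of_genus_le M A hA hqM
      (gen_of_rhRel M (fun _ _ _ _ _ _ _ _ _ _ _ _ h1 h2 => Fermat.Agent.RR.rhRel h1 h2) h49 _ hqM)
  have hm : p ^ e ≠ 0 := pow_ne_zero e hp.ne_zero
  have hqm : ¬ q ∣ p ^ e := fun hd =>
    hpq ((Nat.prime_dvd_prime_iff_eq hq.out hp).1 (hq.out.dvd_of_dvd_pow hd)).symm
  have hS' : ∀ r : Nat.Primes, (r : ℕ) ∉ S → ¬ (r : ℕ) ∣ M * q := fun r hr => hS r r.2 hr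
  obtain ⟨y₁, y₂, hy₁, hy₂, hT⟩ :=
    exists_tri hqM A hA h49 h hm S hS' hqm (fd0Hyp_mod hqM A h49 hA hm) ⟨ℓ₀, hℓ₀⟩ hℓ₀S hxe hI
  set 𝒯 := triData hqM A hA h49 h hm S hS' with h𝒯
  set x' : JZero (M * q) := heckeOperatorBar (M * q) ⟨ℓ₀, hℓ₀⟩ x - (ℓ₀ + 1) • x with hx'
  have hinj : ∀ y : JZero M, p ^ e • y = 0 → 𝒯.red y = 0 → y = 0 := fun y hy hy0 =>
    Fermat.Agent.S18.result M hqM A hA h (p ^ e) hqm y hy hy0
  -- invariance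
  have hfix : ∀ c, gY₁ c y₁ = y₁ ∧ gY₂ c y₂ = y₂ := fun c =>
    fixed_of_tri 𝒯 (p ^ e) hinj (gX c) (gY₁ c) (gY₂ c) (hTri c)
      (by rw [hx', map_sub, map_nsmul, hg c, hg' c]) hy₁ hy₂ hT
  -- `θ`-part
  have hx'θ : ∀ r : {r : Nat.Primes // (r : ℕ) ∉ S}, ∃ n : ℕ,
      ((𝒯.TX r - (((fun r : {r : Nat.Primes // (r : ℕ) ∉ S} => θ r.1) r : ℤ) :
        Module.End ℤ (JZero (M * q)))) ^ n) x' = 0 := by
    intro r
    obtain ⟨f, hf⟩ := exists_polyJ (M * q) S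
    have e1 : f (X ℓ₀ - C ((ℓ₀ : ℤ) + 1)) x = x' := by
      rw [map_sub, LinearMap.sub_apply, hf, TJ_of_good hℓ₀ hℓ₀S,
        eq_intCast (C : ℤ →+* MvPolynomial ℕ ℤ) ((ℓ₀ : ℤ) + 1), map_intCast,
        Module.End.intCast_apply, hx']
      congr 1
    have h1 := map_mem_thetaPart_poly f hf (X ℓ₀ - C ((ℓ₀ : ℤ) + 1)) hx
    rw [e1] at h1
    exact h1.2 r.1 r.2
  have hθ := fun r => theta_of_tri 𝒯 (p ^ e) (fun r => θ r.1) hinj hx'θ hy₁ hy₂ hT r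
  have hz : ∀ (gY : γ → JZero M →+ JZero M) (h0 : ∀ y ∈ WS M p S θ, (∀ c, gY c y = y) → y = 0)
      (y : JZero M), p ^ e • y = 0 → (∀ c, gY c y = y) →
      (∀ r : {r : Nat.Primes // (r : ℕ) ∉ S}, ∃ n : ℕ,
        ((𝒯.TY r - ((θ r.1 : ℤ) : Module.End ℤ (JZero M))) ^ n) y = 0) → y = 0 := by
    intro gY h0 y hy hgy hyθ
    by_contra hne
    obtain ⟨j, hj, hj'⟩ := exists_pow_smul_ne_zero e hy hne
    refine hj (h0 _ ((mem_WS_iff).2 ⟨hj', fun r hr => ?_⟩) fun c => by rw [map_nsmul, hgy c])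
    obtain ⟨n, hn⟩ := hyθ ⟨r, hr⟩
    exact ⟨n, by rw [map_nsmul]; erw [hn]; rw [smul_zero]⟩
  have e₁ : y₁ = 0 := hz gY₁ h0₁ y₁ hy₁ (fun c => (hfix c).1) fun r => (hθ r).1
  have e₂ : y₂ = 0 := hz gY₂ h0₂ y₂ hy₂ (fun c => (hfix c).2) fun r => (hθ r).2
  rw [e₁, e₂] at hT
  exact isToric_of_tri hqM A hA h49 h hm S hS' hT

include hA h49 hp hpq in
/-- **(KEY) for invariant classes.** -/
theorem key_eq {σ : GQ} (hσ : A.IsFrobeniusAt σ q)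
    (S : Set ℕ) (hS : ∀ ℓ : ℕ, ℓ.Prime → ℓ ∉ S → ¬ ℓ ∣ M * q * p) (θ : ℕ → ℤ)
    (ℓ₀ : ℕ) (hℓ₀ : ℓ₀.Prime) (hℓ₀S : ℓ₀ ∉ S) (hne : ¬ (p : ℤ) ∣ θ ℓ₀ - ((ℓ₀ : ℤ) + 1))
    {γ : Type*} (gX : γ → JZero (M * q) →+ JZero (M * q)) (gY₁ gY₂ : γ → JZero M →+ JZero M)
    (hTri : ∀ (e : ℕ) (c : γ) x y₁ y₂, TriC hqM A (p ^ e) x y₁ y₂ →
      TriC hqM A (p ^ e) (gX c x) (gY₁ c y₁) (gY₂ c y₂))
    (h0₁ : ∀ y ∈ WS M p S θ, (∀ c, gY₁ c y = y) → y = 0)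
    (h0₂ : ∀ y ∈ WS M p S θ, (∀ c, gY₂ c y = y) → y = 0)
    (x : JZero (M * q)) (hx : x ∈ thetaPart (M * q) p S θ)
    (hI : ∀ τ ∈ A.inertiaSubgroupIn ℚ, τ • x = x) (hg : ∀ c, gX c x = x)
    (hg' : ∀ c, gX c (heckeOperatorBar (M * q) ⟨ℓ₀, hℓ₀⟩ x) =
      heckeOperatorBar (M * q) ⟨ℓ₀, hℓ₀⟩ x) :
    σ • x + q • (swAut hqM • x) = 0 := by
  have hS1 : ∀ ℓ : ℕ, ℓ.Prime → ℓ ∉ S → ¬ ℓ ∣ M * q := fun ℓ hℓ hℓS hd =>
    hS ℓ hℓ hℓS (hd.mul_right p)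
  obtain ⟨e, he⟩ := hx.1
  have htor := isToric_eq hqM A hA h49 hp hpq S hS1 θ ℓ₀ hℓ₀ hℓ₀S gX gY₁ gY₂ e (hTri e) h0₁ h0₂
    x hx he hI hg hg'
  have hfr := frob_smul_of_isToric hqM A h49 hA hp hpq e hσ htor
  set w : JZero (M * q) →+ JZero (M * q) :=
    DistribSMul.toAddMonoidHom (JZero (M * q)) (swAut hqM) with hw
  have hwg : ∀ (g : GQ) x, w (g • x) = g • w x := fun g x => (gal_smul_swAut_smul hqM g x).symm
  have hS2 : ∀ r : ℕ, r.Prime → r ∉ S → ¬ r ∣ M * q * p ∧ ¬ r ∣ M * q * p :=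
    fun r hr hrS => ⟨hS r hr hrS, hS r hr hrS⟩
  have hwθ : ∀ x ∈ thetaPart (M * q) p S θ, w x ∈ thetaPart (M * q) p S θ := fun x hx =>
    map_mem_thetaPart_of_equivariant w hwg hS2 hx
  obtain ⟨f, hf⟩ := exists_polyJ (M * q) S
  set P : MvPolynomial ℕ ℤ := X ℓ₀ - C ((ℓ₀ : ℤ) + 1) with hP
  have e1 : f P x = heckeOperatorBar (M * q) ⟨ℓ₀, hℓ₀⟩ x - (ℓ₀ + 1) • x := by
    rw [hP, map_sub, LinearMap.sub_apply, hf, TJ_of_good hℓ₀ hℓ₀S,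
      eq_intCast (C : ℤ →+* MvPolynomial ℕ ℤ) ((ℓ₀ : ℤ) + 1), map_intCast,
      Module.End.intCast_apply]
    congr 1
  have hPc : aeval (cutS S θ) P = θ ℓ₀ - ((ℓ₀ : ℤ) + 1) := by
    rw [hP, map_sub, aeval_X, cutS_of_good hℓ₀ hℓ₀S, aeval_C]
    rfl
  set E : JZero (M * q) →+ JZero (M * q) :=
    DistribSMul.toAddMonoidHom (JZero (M * q)) σ + q • w with hE
  have hEapp : ∀ z, E z = σ • z + q • w z := fun z => rfl
  have hEθ : E x ∈ thetaPart (M * q) p S θ := by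
    rw [hEapp]
    exact (thetaPart (M * q) p S θ).add_mem (smul_mem_thetaPart σ hx)
      ((thetaPart (M * q) p S θ).nsmul_mem (hwθ x hx) q)
  have hcomm : E (f P x) = f P (E x) := by
    refine comm_poly (p := p) f hf E (fun r hr y hy => ?_) P x hx.1
    have h1 : w (heckeOperatorBar (M * q) r y) = heckeOperatorBar (M * q) r (w y) :=
      SS.map_hecke_of_equivariant (SS.es_all (M * q) p).2 (SS.es_all (M * q) p).2 w hwg r
        (hS r r.2 hr) (hS r r.2 hr) y hy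
    rw [hEapp, hEapp, h1, map_add, map_nsmul]
    congr 1
    exact galHecke (M * q) r σ y
  have := eq_zero_of_comm (θ := θ) hp f hf P (by rw [hPc]; exact hne) E hEθ hcomm
    (by rw [hEapp, e1]; exact hfr)
  exact this

end Main

end Fermat.Agent.ML.At2.KeyG
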